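import Mathlib.Data.Matrix.Mul
import Mathlib.Data.Rat.Lemmas
import Mathlib.NumberTheory.SumFourSquares
import Mathlib.Tactic

/-!
# Descending a quadratic identity

If a square rational matrix carries `n ∑ x ^ 2 + l w ^ 2`, `w` linear, into a sum of squares, then
Lagrange's four squares absorb `n` in blocks of four and the variables are eliminated one at a
time, leaving a ternary equation.
-/

set_option autoImplicit false

noncomputable section

open Finset Matrix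

namespace FA.BruckRyserChowla

/-- Eliminating the variables. -/
theorem exists_sq_eq_fin : ∀ (t : ℕ) (A : Matrix (Fin t) (Fin t) ℚ) (b : Fin t → ℚ),
    ∃ y : Fin t → ℚ, ∀ i, ((A *ᵥ y) i + b i) ^ 2 = y i ^ 2 := by
  intro t
  induction t with
  | zero => exact fun A b => ⟨0, fun i => i.elim0⟩
  | succ t ih =>
    intro A b
    obtain ⟨s, hs⟩ : ∃ s : ℚ, ∀ r, (A 0 0 * (s * r) + r) ^ 2 = (s * r) ^ 2 := by
      by_cases h : A 0 0 = 1
      · exact ⟨-1 / 2, fun r => by rw [h]; ring⟩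
      · refine ⟨1 / (1 - A 0 0), fun r => ?_⟩
        have h' : (1 : ℚ) - A 0 0 ≠ 0 := sub_ne_zero.2 (Ne.symm h)
        congr 1
        field_simp
        ring
    obtain ⟨y, hy⟩ := ih (fun i j => A i.succ 0 * s * A 0 j.succ + A i.succ j.succ)
      (fun i => A i.succ 0 * s * b 0 + b i.succ)
    set r := ∑ j, A 0 j.succ * y j + b 0 with hr
    refine ⟨Fin.cons (s * r) y, fun i => ?_⟩
    simp only [mulVec, dotProduct, Fin.sum_univ_succ, Fin.cons_zero, Fin.cons_succ] at hy ⊢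
    refine Fin.cases ?_ (fun i => ?_) i
    · rw [Fin.cons_zero, ← hs r, hr]
      ring
    · rw [Fin.cons_succ, ← hy i, hr]
      simp only [add_mul, sum_add_distrib, mul_add, mul_sum]
      congr 1
      ring_nf

/-- Eliminating the variables, any index set. -/
theorem exists_sq_eq {J : Type*} [Fintype J] (A : Matrix J J ℚ) (b : J → ℚ) :
    ∃ y : J → ℚ, ∀ i, ((A *ᵥ y) i + b i) ^ 2 = y i ^ 2 := by
  set e := (Fintype.equivFin J).symm
  obtain ⟨y, hy⟩ := exists_sq_eq_fin _ (A.submatrix e e) (b ∘ e)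
  refine ⟨y ∘ e.symm, fun i => ?_⟩
  have := hy (e.symm i)
  simp only [mulVec, dotProduct, submatrix_apply, Function.comp, Equiv.apply_symm_apply] at this ⊢
  rw [← this, ← e.sum_comp (fun j => A i j * y (e.symm j))]
  simp

/-- Four squares in a row. -/
def fourMatrix (a b c d : ℚ) : Matrix (Fin 4) (Fin 4) ℚ :=
  !![a, b, c, d; -b, a, -d, c; -c, d, a, -b; -d, -c, b, a]

theorem sum_sq_fourMatrix (a b c d : ℚ) (y : Fin 4 → ℚ) :
    ∑ i, (fourMatrix a b c d *ᵥ y) i ^ 2 = (a ^ 2 + b ^ 2 + c ^ 2 + d ^ 2) * ∑ i, y i ^ 2 := by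
  simp [fourMatrix, mulVec, dotProduct, Fin.sum_univ_four]
  ring

/-- The blocks absorb `n`. -/
theorem exists_absorbing (m : ℕ) {n : ℕ} (hn : 0 < n) :
    ∃ T : Matrix (Fin m × Fin 4) (Fin m × Fin 4) ℚ,
      ∀ y, (n : ℚ) * ∑ p, (T *ᵥ y) p ^ 2 = ∑ p, y p ^ 2 := by
  obtain ⟨a, b, c, d, e⟩ := Nat.sum_four_squares n
  have eq : (a : ℚ) ^ 2 + (b : ℚ) ^ 2 + (c : ℚ) ^ 2 + (d : ℚ) ^ 2 = n := by exact_mod_cast e
  refine ⟨fun p q => if p.1 = q.1 then fourMatrix a b c d p.2 q.2 / n else 0, fun y => ?_⟩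
  have hT : ∀ p : Fin m × Fin 4,
      ((fun p q : Fin m × Fin 4 => if p.1 = q.1 then fourMatrix a b c d p.2 q.2 / (n : ℚ) else 0) *ᵥ
        y) p = (fourMatrix a b c d *ᵥ fun j => y (p.1, j)) p.2 / n := fun p => by
    simp only [mulVec, dotProduct, Fintype.sum_prod_type, ite_mul, zero_mul]
    rw [Finset.sum_eq_single p.1 (fun i _ hi => by simp [Ne.symm hi]) (by simp)]
    simp [Finset.sum_div, div_mul_eq_mul_div]
  have hn' : (n : ℚ) ≠ 0 := by exact_mod_cast hn.ne'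
  simp only [hT, Fintype.sum_prod_type]
  rw [mul_sum]
  refine Fintype.sum_congr _ _ fun i => ?_
  simp only [div_pow, ← Finset.sum_div]
  rw [sum_sq_fourMatrix, eq]
  field_simp

/-- Absorbing in any index set of cardinality divisible by four. -/
theorem exists_absorbing' {J : Type*} [Fintype J] (h4 : 4 ∣ Fintype.card J) {n : ℕ} (hn : 0 < n) :
    ∃ T : Matrix J J ℚ, ∀ y, (n : ℚ) * ∑ p, (T *ᵥ y) p ^ 2 = ∑ p, y p ^ 2 := by
  obtain ⟨m, hm⟩ := h4
  obtain ⟨T, hT⟩ := exists_absorbing m hn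
  have e : J ≃ Fin m × Fin 4 := Fintype.equivOfCardEq (by simp [hm, mul_comm])
  refine ⟨T.submatrix e e, fun y => ?_⟩
  rw [submatrix_mulVec_equiv, ← e.symm.sum_comp fun p => y p ^ 2, ← hT,
    ← e.symm.sum_comp fun p => ((T *ᵥ (y ∘ e.symm)) ∘ e) p ^ 2]
  simp [Function.comp_def]

/-- **The descent, `4 m + 1` variables.** -/
theorem descent_one {J : Type*} [Fintype J] (h4 : 4 ∣ Fintype.card J) {n : ℕ} (hn : 0 < n)
    (l : ℚ) (N : Matrix (J ⊕ Unit) (J ⊕ Unit) ℚ) (c : J ⊕ Unit → ℚ)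
    (hN : ∀ x, ∑ i, (N *ᵥ x) i ^ 2 = n * ∑ i, x i ^ 2 + l * (c ⬝ᵥ x) ^ 2) :
    ∃ a w : ℚ, a ^ 2 = n + l * w ^ 2 := by
  obtain ⟨T, hT⟩ := exists_absorbing' h4 hn
  obtain ⟨y, hy⟩ := exists_sq_eq ((N.submatrix Sum.inl Sum.inl) * T)
    (fun i => N (Sum.inl i) (Sum.inr ()))
  set x : J ⊕ Unit → ℚ := Sum.elim (T *ᵥ y) 1 with hx
  have hL : ∀ i, (N *ᵥ x) (Sum.inl i) ^ 2 = y i ^ 2 := fun i => by
    rw [← hy i, ← mulVec_mulVec]
    congr 1
    simp [hx, mulVec, dotProduct, Fintype.sum_sum_type]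
  refine ⟨(N *ᵥ x) (Sum.inr ()), c ⬝ᵥ x, ?_⟩
  have h := hN x
  rw [Fintype.sum_sum_type] at h
  simp only [hL] at h
  simp only [Fintype.sum_sum_type, hx, Sum.elim_inl, Sum.elim_inr, Fintype.sum_unique,
    Pi.one_apply, mul_add, hT] at h
  simp only [hx]
  linarith

/-- **The descent, `4 m + 3` variables.** -/
theorem descent_three {ι : Type*} [Fintype ι] (h4 : 4 ∣ Fintype.card ι + 1) {n : ℕ} (hn : 0 < n)
    (l : ℚ) (N : Matrix ι ι ℚ) (c : ι → ℚ)
    (hN : ∀ x, ∑ i, (N *ᵥ x) i ^ 2 = n * ∑ i, x i ^ 2 + l * (c ⬝ᵥ x) ^ 2) :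
    ∃ u w : ℚ, (n : ℚ) * u ^ 2 = 1 + l * w ^ 2 := by
  obtain ⟨T, hT⟩ := exists_absorbing' (J := ι ⊕ Unit) (by simpa using h4) hn
  obtain ⟨y, hy⟩ := exists_sq_eq (N * T.submatrix Sum.inl Sum.inl)
    (N *ᵥ fun j => T (Sum.inl j) (Sum.inr ()))
  set z : ι ⊕ Unit → ℚ := Sum.elim y 1 with hz
  set x : ι → ℚ := fun i => (T *ᵥ z) (Sum.inl i) with hx
  have hL : ∀ i, (N *ᵥ x) i ^ 2 = y i ^ 2 := fun i => by
    have e : x = T.submatrix Sum.inl Sum.inl *ᵥ y + fun j => T (Sum.inl j) (Sum.inr ()) := by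
      ext j
      simp [hx, hz, mulVec, dotProduct, Fintype.sum_sum_type]
    rw [← hy i, e, mulVec_add, ← mulVec_mulVec]
    rfl
  refine ⟨(T *ᵥ z) (Sum.inr ()), c ⬝ᵥ x, ?_⟩
  have h := hT z
  have h' := hN x
  simp only [Fintype.sum_sum_type, Fintype.sum_unique, hz, Sum.elim_inl, Sum.elim_inr,
    Pi.one_apply, one_pow, mul_add] at h
  simp only [hL] at h'
  simp only [hz, hx] at *
  linarith

/-- Clearing denominators. -/
theorem exists_int_clear (r s : ℚ) : ∃ (d : ℕ) (a b : ℤ), 0 < d ∧ r * d = a ∧ s * d = b := by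
  refine ⟨r.den * s.den, r.num * s.den, s.num * r.den, by positivity, ?_, ?_⟩ <;> push_cast
  · rw [← mul_assoc, Rat.mul_den_eq_num]
  · rw [mul_comm (r.den : ℚ), ← mul_assoc, Rat.mul_den_eq_num]

end FA.BruckRyserChowla

end
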