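import Fermat.Agent.BruckRyserChowla.Core
import Mathlib.Combinatorics.Configuration
import Mathlib.LinearAlgebra.Matrix.SchurComplement
import Mathlib.NumberTheory.SumTwoSquares

/-!
# The Bruck–Ryser–Chowla theorem

The incidence matrix of a symmetric design is fed to the descent; the case of projective planes
then reads off sums of two squares.
-/

set_option autoImplicit false

noncomputable section

open Finset Matrix

namespace FA.BruckRyserChowla

/-- A symmetric design: as many blocks as points, `k` points in a block, `k` blocks at a point and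
`l` blocks at two points. -/
structure IsDesign {P Q : Type*} [Fintype P] [Fintype Q] (R : Q → P → Prop) (k l : ℕ) :
    Prop where
  card_eq : Fintype.card Q = Fintype.card P
  block : ∀ q, Nat.card {p // R q p} = k
  point : ∀ p, Nat.card {q // R q p} = k
  pair : ∀ p p', p ≠ p' → Nat.card {q // R q p ∧ R q p'} = l

variable {P Q : Type*} [Fintype P] [Fintype Q] {R : Q → P → Prop} {k l : ℕ}

open scoped Classical in
/-- The incidence matrix. -/
def incidence (R : Q → P → Prop) (e : P ≃ Q) : Matrix P P ℚ := fun i j => if R (e i) j then 1 else 0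

open scoped Classical in
theorem IsDesign.transpose_mul (h : IsDesign R k l) (e : P ≃ Q) :
    (incidence R e)ᵀ * incidence R e =
      ((k : ℚ) - l) • (1 : Matrix P P ℚ) + of fun _ _ => (l : ℚ) := by
  ext p p'
  have key : ((incidence R e)ᵀ * incidence R e) p p' =
      (Nat.card {q // R q p ∧ R q p'} : ℚ) := by
    rw [Nat.card_eq_fintype_card, Fintype.card_subtype, natCast_card_filter, mul_apply,
      ← e.sum_comp fun q => if R q p ∧ R q p' then (1 : ℚ) else 0]
    refine Fintype.sum_congr _ _ fun i => ?_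
    simp only [transpose_apply, incidence]
    split_ifs <;> simp_all
  rw [key]
  rcases eq_or_ne p p' with rfl | hne
  · simp only [and_self]
    rw [h.point p]
    simp
  · rw [h.pair p p' hne]
    simp [hne]

open scoped Classical in
/-- Double counting. -/
theorem IsDesign.sq_eq (h : IsDesign R k l) [Nonempty P] :
    (k : ℚ) ^ 2 = (k : ℚ) - l + l * Fintype.card P := by
  have e : P ≃ Q := Fintype.equivOfCardEq h.card_eq.symm
  have hrow : incidence R e *ᵥ (fun _ => (1 : ℚ)) = fun _ => (k : ℚ) := by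
    ext i
    have := h.block (e i)
    rw [Nat.card_eq_fintype_card, Fintype.card_subtype] at this
    rw [← this, natCast_card_filter]
    simp only [mulVec, dotProduct, incidence, mul_one]
  have hcol : ∀ j, ∑ i, incidence R e i j = (k : ℚ) := fun j => by
    have := h.point j
    rw [Nat.card_eq_fintype_card, Fintype.card_subtype] at this
    rw [← this, natCast_card_filter, ← e.sum_comp fun q => if R q j then (1 : ℚ) else 0]
    rfl
  obtain ⟨p⟩ := ‹Nonempty P›
  have h1 := congrArg (fun M : Matrix P P ℚ => (M *ᵥ fun _ => (1 : ℚ)) p) (h.transpose_mul e)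
  simp only [← mulVec_mulVec, hrow] at h1
  simp [mulVec, dotProduct, transpose_apply, Finset.sum_add_distrib,
    ← Finset.sum_mul, hcol, Matrix.one_apply] at h1
  linarith

theorem IsDesign.identity (h : IsDesign R k l) (e : P ≃ Q) (x : P → ℚ) :
    ∑ i, (incidence R e *ᵥ x) i ^ 2 =
      ((k : ℚ) - l) * ∑ i, x i ^ 2 + l * ((fun _ => 1) ⬝ᵥ x) ^ 2 := by
  classical
  calc ∑ i, (incidence R e *ᵥ x) i ^ 2
      = (incidence R e *ᵥ x) ⬝ᵥ (incidence R e *ᵥ x) := by simp [dotProduct, sq]
    _ = x ⬝ᵥ (((incidence R e)ᵀ * incidence R e) *ᵥ x) := by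
      rw [← mulVec_mulVec, dotProduct_mulVec x, vecMul_transpose]
    _ = _ := by
      rw [h.transpose_mul e, add_mulVec, smul_mulVec, one_mulVec, dotProduct_add]
      simp only [dotProduct, mulVec, of_apply, Pi.smul_apply, smul_eq_mul, one_mul, sq,
        mul_sum, sum_mul]
      congr 1 <;> refine Fintype.sum_congr _ _ fun i => ?_
      · ring
      · refine Fintype.sum_congr _ _ fun j => ?_
        ring

/-- **The Bruck–Ryser–Chowla equation.** -/
theorem IsDesign.exists_solution (h : IsDesign R k l) (hlk : l < k)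
    (hodd : Odd (Fintype.card P)) :
    ∃ x y z : ℤ, y ≠ 0 ∧
      x ^ 2 = ((k : ℤ) - l) * y ^ 2 + (-1) ^ ((Fintype.card P - 1) / 2) * l * z ^ 2 := by
  set v := Fintype.card P with hv
  have e : P ≃ Q := Fintype.equivOfCardEq h.card_eq.symm
  have hcast : ((k - l : ℕ) : ℚ) = (k : ℚ) - l := by rw [Nat.cast_sub hlk.le]
  have hid : ∀ x, ∑ i, (incidence R e *ᵥ x) i ^ 2 =
      ((k - l : ℕ) : ℚ) * ∑ i, x i ^ 2 + l * ((fun _ => 1) ⬝ᵥ x) ^ 2 := fun x => by
    rw [hcast]; exact h.identity e x
  rcases (show v % 4 = 1 ∨ v % 4 = 3 by obtain ⟨t, ht⟩ := hodd; omega) with h4 | h4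
  · have f : Fin (v - 1) ⊕ Unit ≃ P := Fintype.equivOfCardEq (by simp; omega)
    obtain ⟨a, w, haw⟩ := descent_one (J := Fin (v - 1)) (by simp; omega)
      (by omega : 0 < k - l) l ((incidence R e).submatrix f f) (fun _ => 1) fun x => by
        rw [submatrix_mulVec_equiv, ← f.symm.sum_comp fun i => x i ^ 2]
        have h' := hid (x ∘ f.symm)
        rw [← f.sum_comp fun i => (incidence R e *ᵥ (x ∘ f.symm)) i ^ 2] at h'
        simpa [dotProduct, Function.comp_def, f.symm.sum_comp x] using h'
    obtain ⟨d, A, W, hd, hA, hW⟩ := exists_int_clear a w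
    refine ⟨A, d, W, by omega, ?_⟩
    rw [show (v - 1) / 2 = 2 * ((v - 1) / 4) by omega, pow_mul]
    norm_num
    rw [hcast] at haw
    have key : (A : ℚ) ^ 2 = ((k : ℚ) - l) * (d : ℚ) ^ 2 + l * (W : ℚ) ^ 2 := by
      rw [← hA, ← hW]
      linear_combination (d : ℚ) ^ 2 * haw
    exact_mod_cast key
  · obtain ⟨u, w, huw⟩ := descent_three (ι := P) (by omega) (by omega : 0 < k - l) l
      (incidence R e) (fun _ => 1) hid
    obtain ⟨d, U, W, hd, hU, hW⟩ := exists_int_clear u w
    rw [hcast] at huw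
    have key : (d : ℚ) ^ 2 = ((k : ℚ) - l) * (U : ℚ) ^ 2 + -1 * l * (W : ℚ) ^ 2 := by
      rw [← hU, ← hW]
      linear_combination -(d : ℚ) ^ 2 * huw
    refine ⟨d, U, W, fun h0 => ?_, ?_⟩
    · rw [h0, Int.cast_zero] at key
      have : (0 : ℚ) < d := by exact_mod_cast hd
      nlinarith [mul_nonneg (Nat.cast_nonneg (α := ℚ) l) (sq_nonneg (W : ℚ))]
    · have hsign : (-1 : ℤ) ^ ((v - 1) / 2) = -1 := Odd.neg_one_pow ⟨(v - 3) / 4, by omega⟩
      rw [hsign]
      exact_mod_cast key

open scoped Classical in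
/-- **Schützenberger's condition.** -/
theorem IsDesign.isSquare_of_even (h : IsDesign R k l) (hlk : l < k)
    (hpos : 0 < Fintype.card P) (heven : Even (Fintype.card P)) : IsSquare (k - l) := by
  set v := Fintype.card P with hv
  have : Nonempty P := Fintype.card_pos_iff.1 hpos
  have e : P ≃ Q := Fintype.equivOfCardEq h.card_eq.symm
  set n : ℚ := (k : ℚ) - l with hn
  have hn0 : 0 < n := by rw [hn, sub_pos]; exact_mod_cast hlk
  have hM : (incidence R e)ᵀ * incidence R e =
      n • ((1 : Matrix P P ℚ) + replicateCol Unit (fun _ => (l : ℚ) / n) *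
        replicateRow Unit (fun _ => (1 : ℚ))) := by
    rw [h.transpose_mul e, smul_add]
    congr 1
    ext i j
    simp [Matrix.mul_apply]
    field_simp
  have hdet := congrArg Matrix.det hM
  rw [det_mul, det_transpose, det_smul, det_one_add_replicateCol_mul_replicateRow, ← hv] at hdet
  have hsum : (fun _ : P => (1 : ℚ)) ⬝ᵥ (fun _ => (l : ℚ) / n) = v * ((l : ℚ) / n) := by
    simp [dotProduct, hv]
  rw [hsum] at hdet
  obtain ⟨t, ht⟩ : ∃ t, v = 2 * t + 2 := ⟨v / 2 - 1, by obtain ⟨s, hs⟩ := heven; omega⟩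
  have hsq := h.sq_eq
  rw [← hv, ← hn] at hsq
  have hk : (k : ℚ) ≠ 0 := by
    have : (0 : ℚ) < k := by exact_mod_cast (by omega : 0 < k)
    exact this.ne'
  refine Rat.isSquare_natCast_iff.1 ⟨(incidence R e).det / (n ^ t * k), ?_⟩
  rw [Nat.cast_sub hlk.le, ← hn]
  have e2 : n ^ v * (1 + v * ((l : ℚ) / n)) = n ^ (2 * t + 1) * k ^ 2 := by
    rw [hsq, ht]
    field_simp
    ring
  rw [e2] at hdet
  field_simp
  linear_combination -hdet

/-- A natural number is a sum of two squares once a square multiple of it is. -/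
theorem two_squares_of_sq_mul {n : ℕ} {x y z : ℤ} (hy : y ≠ 0)
    (h : x ^ 2 + z ^ 2 = (n : ℤ) * y ^ 2) : ∃ a b : ℕ, n = a ^ 2 + b ^ 2 := by
  rcases Nat.eq_zero_or_pos n with rfl | hn
  · exact ⟨0, 0, rfl⟩
  refine Nat.eq_sq_add_sq_iff.2 fun q hq hq3 => ?_
  have : Fact q.Prime := ⟨Nat.prime_of_mem_primeFactors hq⟩
  have hy' : y.natAbs ≠ 0 := Int.natAbs_ne_zero.2 hy
  have e : n * y.natAbs ^ 2 = x.natAbs ^ 2 + z.natAbs ^ 2 := by
    zify
    simp [h]
  have := Nat.eq_sq_add_sq_iff.1 ⟨_, _, e⟩ q (Nat.mem_primeFactors.2 ⟨this.out,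
    (Nat.dvd_of_mem_primeFactors hq).mul_right _, by positivity⟩) hq3
  rw [padicValNat.mul hn.ne' (pow_ne_zero _ hy'), padicValNat.pow,
    Nat.even_add] at this
  exact this.2 (even_two_mul _)

end FA.BruckRyserChowla

namespace FA.BruckRyserChowla

open Configuration

/-- A projective plane is a design. -/
theorem isDesign_plane (P L : Type*) [Membership P L] [ProjectivePlane P L] [Fintype P]
    [Fintype L] :
    IsDesign (fun (q : L) (p : P) => p ∈ q) (ProjectivePlane.order P L + 1) 1 where
  card_eq := (ProjectivePlane.card_points_eq_card_lines P L).symm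
  block q := ProjectivePlane.pointCount_eq P q
  point p := ProjectivePlane.lineCount_eq L p
  pair p p' hne := by
    obtain ⟨q, hq, huniq⟩ := HasLines.existsUnique_line P L p p' hne
    rw [Nat.card_eq_one_iff_unique]
    exact ⟨⟨fun a b => Subtype.ext ((huniq _ a.2).trans (huniq _ b.2).symm)⟩, ⟨⟨q, hq⟩⟩⟩

/-- **The Bruck–Ryser theorem.** -/
theorem plane_two_squares (P L : Type*) [Membership P L] [ProjectivePlane P L] [Finite P]
    [Finite L] (h : ProjectivePlane.order P L % 4 = 1 ∨ ProjectivePlane.order P L % 4 = 2) :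
    ∃ a b : ℕ, ProjectivePlane.order P L = a ^ 2 + b ^ 2 := by
  have := Fintype.ofFinite P
  have := Fintype.ofFinite L
  have hone := ProjectivePlane.one_lt_order P L
  have hcard := ProjectivePlane.card_points P L
  set n := ProjectivePlane.order P L with hn
  have hv : Fintype.card P % 4 = 3 := by
    rw [hcard]
    obtain ⟨t, ht⟩ : ∃ t, n = 4 * t + 1 ∨ n = 4 * t + 2 := ⟨n / 4, by omega⟩
    rcases ht with e | e <;> rw [e]
    · rw [show (4 * t + 1) ^ 2 + (4 * t + 1) + 1 = 4 * (4 * t * t + 3 * t) + 3 by ring]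
      omega
    · rw [show (4 * t + 2) ^ 2 + (4 * t + 2) + 1 = 4 * (4 * t * t + 5 * t + 1) + 3 by ring]
      omega
  obtain ⟨x, y, z, hy, e⟩ := (isDesign_plane P L).exists_solution (by omega)
    (Nat.odd_iff.2 (by omega))
  have hsign : (-1 : ℤ) ^ ((Fintype.card P - 1) / 2) = -1 :=
    Odd.neg_one_pow ⟨(Fintype.card P - 3) / 4, by omega⟩
  rw [hsign, ← hn] at e
  refine two_squares_of_sq_mul (n := n) (x := x) (z := z) hy ?_
  push_cast at e
  norm_num at e
  linarith

/-- **There is no projective plane of order six.** -/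
theorem order_ne_six (P L : Type*) [Membership P L] [ProjectivePlane P L] [Finite P]
    [Finite L] : ProjectivePlane.order P L ≠ 6 := fun h => by
  obtain ⟨a, b, e⟩ := plane_two_squares P L (Or.inr (by omega))
  rw [h] at e
  have ha : a ≤ 2 := by nlinarith
  have hb : b ≤ 2 := by nlinarith
  interval_cases a <;> interval_cases b <;> omega

end FA.BruckRyserChowla

end
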